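/-
Program C (S55), package C8 (helper29's SPEC v2 part 3), leaf (J-INF), helper16:

INFLATION `J_K → J_L` PRESERVES THE LOCAL INVARIANTS OF IDELE CLASSES, `H29.JInfStatement`.

* `exists_presJ`, `jinvAt_eq_of_pres` : independence of `H29.jinvAt` of the presentation of the
  local extension (helper83's technique, `H83.exists_pres` / `H83.linvAt_eq_of_pres`, for
  `H29.ideleToLoc`);
* `jinvAt_infl` : `jinvAt k q τ'' ∘ Infl = jinvAt k q (τ'' ∘ algebraMap K L)` for every embedding
  `τ''` of the top field, from C3's `H66.c3_invInfl`;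
* `idele_locH2_conj`, `jinvAt_eq_of_conj` : `jinvAt` at conjugate embeddings agree (helper20's
  `H20.locH2_conj` / `H20.linvAt_eq_of_conj` for `H29.ideleToLoc`);
* `jinvAt_eq_of_comp_eq` : `jinvAt k q τ'` depends only on `τ' ∘ algebraMap k K`;
* `jInfStatement : H29.JInfStatement`.
-/
import Mathlib
import Fermat.Agent.S55.H29.C8Cls
import Fermat.Agent.S55.H83.InflCompat
import Fermat.Agent.S55.H20.LinvIndep
import Fermat.Agent.S55.H66.C3Main

set_option autoImplicit false
set_option linter.style.haveILetI false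
set_option linter.unusedSectionVars false

open CategoryTheory

noncomputable section

namespace Fermat.Agent.S55.H16

open Fermat.Agent.S55.H88 Fermat.Agent.S55.H66 Fermat.Agent.S55.H29

attribute [local instance] factOfPrimes

/-- The value at the embedding `τ` of the component at `q` of an idele. -/
def ideleVal {K : Type} [Field K] (q : Nat.Primes) (τ : K →+* PadicAlgCl (q : ℕ))
    (x : ideleGroup K) : PadicAlgCl (q : ℕ) :=
  ((((x : ∀ q : Nat.Primes, (semiLocal (q : ℕ) K)ˣ) q : (semiLocal (q : ℕ) K)ˣ) :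
    semiLocal (q : ℕ) K) : (K →+* PadicAlgCl (q : ℕ)) → PadicAlgCl (q : ℕ)) τ

section Pres

variable (k : Type) {K : Type} [Field k] [Field K] [Algebra k K] [Normal k K]
  (q : Nat.Primes) (τ : K →+* PadicAlgCl (q : ℕ))

theorem ideleToLoc_val (x : Additive (ideleGroup K)) :
    (((Additive.toMul ((ideleToLoc k q τ).hom x) : (locExt (q : ℕ) k τ)ˣ) :
      locExt (q : ℕ) k τ) : PadicAlgCl (q : ℕ)) = ideleVal q τ (Additive.toMul x) := rfl

/-- Every presentation `(B, M)` of the local extension at `τ` carries the idele localisation. -/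
theorem exists_presJ (B : IntermediateField ℚ_[(q : ℕ)] (PadicAlgCl (q : ℕ)))
    (hB : B = locBase (q : ℕ) k τ)
    (M : IntermediateField B (PadicAlgCl (q : ℕ))) (hM : ∀ z, z ∈ M ↔ z ∈ locField (q : ℕ) τ) :
    Normal B M ∧ ∃ (ψ : (M ≃ₐ[B] M) →* (K ≃ₐ[k] K)) (e : K →+* M)
      (u : Rep.res ψ (ideleRep k K) ⟶ Rep.ofAlgebraAutOnUnits B M),
      (∀ x, ((e x : M) : PadicAlgCl (q : ℕ)) = τ x) ∧
      (∀ (α : M ≃ₐ[B] M) (x : K), α (e x) = e (ψ α x)) ∧
      ∀ x : Additive (ideleGroup K), (((Additive.toMul (u.hom x) : Mˣ) : M) : PadicAlgCl (q : ℕ))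
        = ideleVal q τ (Additive.toMul x) := by
  subst hB
  obtain rfl : M = locExt (q : ℕ) k τ := SetLike.ext hM
  exact ⟨inferInstance, locGalToGlobal (q : ℕ) k τ, locExtEmb (q : ℕ) k τ, ideleToLoc k q τ,
    fun _ => rfl, locGalToGlobal_spec (q : ℕ) k τ, fun _ => rfl⟩

/-- The idele invariant computed in any presentation `(B, M, ψ, e, u)` is `H29.jinvAt`. -/
theorem jinvAt_eq_of_pres (B : IntermediateField ℚ_[(q : ℕ)] (PadicAlgCl (q : ℕ)))
    (hB : B = locBase (q : ℕ) k τ)
    (M : IntermediateField B (PadicAlgCl (q : ℕ))) (hM : ∀ z, z ∈ M ↔ z ∈ locField (q : ℕ) τ)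
    [Normal B M] (ψ : (M ≃ₐ[B] M) →* (K ≃ₐ[k] K)) (e : K →+* M)
    (u : Rep.res ψ (ideleRep k K) ⟶ Rep.ofAlgebraAutOnUnits B M)
    (he : ∀ x, ((e x : M) : PadicAlgCl (q : ℕ)) = τ x)
    (hψ : ∀ (α : M ≃ₐ[B] M) (x : K), α (e x) = e (ψ α x))
    (hu : ∀ x : Additive (ideleGroup K),
      (((Additive.toMul (u.hom x) : Mˣ) : M) : PadicAlgCl (q : ℕ))
        = ideleVal q τ (Additive.toMul x))
    (y : groupCohomology (ideleRep k K) 2) :
    H66.inv (q : ℕ) M ((groupCohomology.map ψ u 2).hom y) = jinvAt k q τ y := by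
  subst hB
  obtain rfl : M = locExt (q : ℕ) k τ := SetLike.ext hM
  obtain rfl : e = locExtEmb (q : ℕ) k τ := RingHom.ext fun x => Subtype.ext (he x)
  obtain rfl : ψ = locGalToGlobal (q : ℕ) k τ := H83.locGalToGlobal_unique (q : ℕ) k τ ψ hψ
  obtain rfl : u = ideleToLoc k q τ := by
    refine Rep.hom_ext (Representation.IntertwiningMap.ext (LinearMap.ext fun x => ?_))
    exact congrArg Additive.ofMul (Units.ext (Subtype.ext (hu x)))
  rfl

end Pres

section Infl

variable (k K L : Type) [Field k] [Field K] [Field L] [Algebra k K] [Algebra k L]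
  [Algebra K L] [IsScalarTower k K L] [Normal k K] [Normal k L]
  [NumberField k] [NumberField K] [NumberField L]

/-- **Local inflation for idele classes**, at every embedding `τ''` of the top field. -/
theorem jinvAt_infl (q : Nat.Primes) (τ'' : L →+* PadicAlgCl (q : ℕ))
    (y : groupCohomology (ideleRep k K) 2) :
    jinvAt k q τ'' ((groupCohomology.map (AlgEquiv.restrictNormalHom (F := k) (K₁ := L) K)
      (ideleInfl k K L) 2).hom y) = jinvAt k q (τ''.comp (algebraMap K L)) y := by
  set τ₁ : K →+* PadicAlgCl (q : ℕ) := τ''.comp (algebraMap K L) with hτ₁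
  have hB : locBase (q : ℕ) k τ'' = locBase (q : ℕ) k τ₁ :=
    H83.locBase_comp_algebraMap (q : ℕ) k K L τ''
  have hle : locBase (q : ℕ) k τ'' ≤ locField (q : ℕ) τ₁ := hB ▸ locBase_le (q : ℕ) k τ₁
  let M : IntermediateField (locBase (q : ℕ) k τ'') (PadicAlgCl (q : ℕ)) :=
    IntermediateField.extendScalars hle
  have hM : ∀ z, z ∈ M ↔ z ∈ locField (q : ℕ) τ₁ := fun z => Iff.rfl
  obtain ⟨hN, ψ, e, u, he, hψ, hu⟩ := exists_presJ k q τ₁ (locBase (q : ℕ) k τ'') hB M hM
  have hML : M ≤ locExt (q : ℕ) k τ'' := H83.locField_comp_le (q : ℕ) K L τ''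
  haveI : FiniteDimensional (locBase (q : ℕ) k τ'') M :=
    H83.finiteDimensional_of_mem_iff (q : ℕ) _ M (locField (q : ℕ) τ₁) hM
  haveI : IsGalois (locBase (q : ℕ) k τ'') M := H83.isGalois_of_normal (q : ℕ) _ M
  haveI : FiniteDimensional (locBase (q : ℕ) k τ'') (locExt (q : ℕ) k τ'') :=
    H83.finiteDimensional_of_mem_iff (q : ℕ) _ _ (locField (q : ℕ) τ'') (fun _ => Iff.rfl)
  haveI : IsGalois (locBase (q : ℕ) k τ'') (locExt (q : ℕ) k τ'') :=
    H83.isGalois_of_normal (q : ℕ) _ _
  have key : (groupCohomology.map (locGalToGlobal (q : ℕ) k τ'') (ideleToLoc k q τ'') 2).hom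
        ((groupCohomology.map (AlgEquiv.restrictNormalHom (F := k) (K₁ := L) K)
          (ideleInfl k K L) 2).hom y)
      = (H66.inflH2 hML).hom ((groupCohomology.map ψ u 2).hom y) := by
    have hfg : (AlgEquiv.restrictNormalHom (F := k) (K₁ := L) K).comp
          (locGalToGlobal (q : ℕ) k τ'')
        = ψ.comp (H66.resHom hML) := by
      refine MonoidHom.ext fun β => AlgEquiv.ext fun x => e.injective (Subtype.ext ?_)
      have h1 : ((e (ψ (H66.resHom hML β) x) : M) : PadicAlgCl (q : ℕ))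
          = ((β (locExtEmb (q : ℕ) k τ'' (algebraMap K L x)) : locExt (q : ℕ) k τ'') :
              PadicAlgCl (q : ℕ)) := by
        rw [← hψ, H66.resHom_apply]
        have h2 : IntermediateField.inclusion hML (e x)
            = locExtEmb (q : ℕ) k τ'' (algebraMap K L x) := Subtype.ext (he x)
        rw [h2]
      rw [MonoidHom.comp_apply, MonoidHom.comp_apply, h1, locGalToGlobal_spec, he]
      show τ'' (algebraMap K L ((locGalToGlobal (q : ℕ) k τ'' β).restrictNormal K x)) = _
      rw [AlgEquiv.restrictNormal_commutes]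
      rfl
    have hφψ : ((Rep.resFunctor (locGalToGlobal (q : ℕ) k τ'')).map (ideleInfl k K L) ≫
          ideleToLoc k q τ'').hom.toLinearMap
        = ((Rep.resFunctor (H66.resHom hML)).map u ≫ H66.inflRep hML).hom.toLinearMap := by
      refine LinearMap.ext fun x => ?_
      refine congrArg Additive.ofMul (Units.ext (Subtype.ext ?_))
      exact (hu x).symm
    have e1 : groupCohomology.map (AlgEquiv.restrictNormalHom (F := k) (K₁ := L) K)
          (ideleInfl k K L) 2 ≫
          groupCohomology.map (locGalToGlobal (q : ℕ) k τ'') (ideleToLoc k q τ'') 2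
        = groupCohomology.map ψ u 2 ≫ H66.inflH2 hML := by
      unfold H66.inflH2
      rw [← groupCohomology.map_comp, ← groupCohomology.map_comp]
      exact groupCohomology.map_congr hfg hφψ 2
    exact congrArg (fun f => f.hom y) e1
  refine (congrArg (H66.inv (q : ℕ) (locExt (q : ℕ) k τ'')) key).trans ?_
  rw [H66.c3_invInfl (q : ℕ) (locBase (q : ℕ) k τ'') M (locExt (q : ℕ) k τ'') hML,
    jinvAt_eq_of_pres k q τ₁ (locBase (q : ℕ) k τ'') hB M hM ψ e u he hψ hu]

end Infl

section Conj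

variable (k : Type) {K : Type} [Field k] [Field K] [Algebra k K] [Normal k K]
variable {q : Nat.Primes} {τ' τ'' : K →+* PadicAlgCl (q : ℕ)}
  {g : PadicAlgCl (q : ℕ) ≃ₐ[ℚ_[(q : ℕ)]] PadicAlgCl (q : ℕ)} {s : K ≃ₐ[k] K}

/-- The value of an idele at conjugate embeddings. -/
theorem ideleVal_conj (h : ∀ x : K, τ'' (s x) = g (τ' x)) (x : ideleGroup K) :
    ideleVal q τ'' x
      = g (ideleVal q (τ'.comp (((s⁻¹ : K ≃ₐ[k] K) : K ≃+* K) : K →+* K)) x) := by
  have hτ : τ'' = (g : PadicAlgCl (q : ℕ) →+* PadicAlgCl (q : ℕ)).comp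
      (τ'.comp (((s⁻¹ : K ≃ₐ[k] K) : K ≃+* K) : K →+* K)) := by
    refine RingHom.ext fun y => ?_
    show τ'' y = g (τ' (s⁻¹ y))
    rw [← h]
    exact (congrArg τ'' (s.apply_symm_apply y)).symm
  exact (congrArg (fun t => ideleVal q t x) hτ).trans (semiLocal_apply_comp _ g _)

/-- **The idele localisation maps at conjugate embeddings** differ by the transport along `g`. -/
theorem idele_locH2_conj (h : ∀ x : K, τ'' (s x) = g (τ' x)) :
    groupCohomology.map (locGalToGlobal (q : ℕ) k τ'') (ideleToLoc k q τ'') 2 =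
      groupCohomology.map (locGalToGlobal (q : ℕ) k τ') (ideleToLoc k q τ') 2 ≫
        H20.transH2 (H20.isCompat_locBase k h) (H20.isImage_locExt k h) := by
  have key : groupCohomology.map (locGalToGlobal (q : ℕ) k τ'') (ideleToLoc k q τ'') 2 =
      groupCohomology.map ((H20.conjHom s).comp ((locGalToGlobal (q : ℕ) k τ').comp
          (H20.galMap (H20.isCompat_locBase k h) (H20.isImage_locExt k h))))
        ((Rep.resFunctor ((locGalToGlobal (q : ℕ) k τ').comp
            (H20.galMap (H20.isCompat_locBase k h) (H20.isImage_locExt k h)))).map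
              (H20.conjRepHom (ideleRep k K) s) ≫
          ((Rep.resFunctor (H20.galMap (H20.isCompat_locBase k h) (H20.isImage_locExt k h))).map
              (ideleToLoc k q τ') ≫
            H20.transRep (H20.isCompat_locBase k h) (H20.isImage_locExt k h))) 2 := by
    refine groupCohomology.map_congr (H20.locGalToGlobal_conj k h) ?_ 2
    refine LinearMap.ext fun u => ?_
    refine congrArg Additive.ofMul (Units.ext (Subtype.ext ?_))
    exact ideleVal_conj k h (Additive.toMul u)
  rw [key, groupCohomology.map_comp, H20.map_conj_H2, Category.id_comp, groupCohomology.map_comp]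
  rfl

variable [NumberField k] [FiniteDimensional k K]

/-- **`jinvAt` at conjugate embeddings.** -/
theorem jinvAt_eq_of_conj (h : ∀ x : K, τ'' (s x) = g (τ' x)) :
    jinvAt k q τ'' = jinvAt k q τ' := by
  refine AddMonoidHom.ext fun x => ?_
  show H66.inv (q : ℕ) (locExt (q : ℕ) k τ'')
      ((groupCohomology.map (locGalToGlobal (q : ℕ) k τ'') (ideleToLoc k q τ'') 2).hom x) =
    H66.inv (q : ℕ) (locExt (q : ℕ) k τ')
      ((groupCohomology.map (locGalToGlobal (q : ℕ) k τ') (ideleToLoc k q τ') 2).hom x)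
  rw [idele_locH2_conj k h]
  exact H20.inv_transH2 (H20.isCompat_locBase k h) (H20.isImage_locExt k h) _

/-- `jinvAt k q τ'` depends only on the restriction of `τ'` to `k`. -/
theorem jinvAt_eq_of_comp_eq (τ' τ'' : K →+* PadicAlgCl (q : ℕ))
    (h0 : τ''.comp (algebraMap k K) = τ'.comp (algebraMap k K)) :
    jinvAt k q τ'' = jinvAt k q τ' := by
  obtain ⟨s, hs⟩ := exists_algEquiv_comp_eq (q : ℕ) τ'' τ' h0
  have h : ∀ x : K, τ'' (s x)
      = (AlgEquiv.refl : PadicAlgCl (q : ℕ) ≃ₐ[ℚ_[(q : ℕ)]] PadicAlgCl (q : ℕ)) (τ' x) :=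
    fun x => (RingHom.congr_fun hs x).symm
  exact jinvAt_eq_of_conj k h

/-- `jinvAt k q τ'` depends only on the place of `k` below `τ'`. -/
theorem jinvAt_eq_of_placeRel (τ' τ'' : K →+* PadicAlgCl (q : ℕ))
    (hrel : (placeSetoid (q : ℕ) k).r (τ'.comp (algebraMap k K)) (τ''.comp (algebraMap k K))) :
    jinvAt k q τ' = jinvAt k q τ'' := by
  obtain ⟨g, hg⟩ := hrel
  have h0 : τ''.comp (algebraMap k K) =
      ((g : PadicAlgCl (q : ℕ) →+* PadicAlgCl (q : ℕ)).comp τ').comp (algebraMap k K) := by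
    rw [hg]; rfl
  obtain ⟨s, hs⟩ := exists_algEquiv_comp_eq (q : ℕ) τ''
    ((g : PadicAlgCl (q : ℕ) →+* PadicAlgCl (q : ℕ)).comp τ') h0
  have h : ∀ x : K, τ'' (s x) = g (τ' x) := fun x => (RingHom.congr_fun hs x).symm
  exact (jinvAt_eq_of_conj k h).symm

end Conj

/-- **Leaf (J-INF)**: inflation `J_K → J_L` preserves the local invariants of idele classes. -/
theorem jInfStatement : JInfStatement := by
  intro k K L _ _ _ _ _ _ _ _ _ _ _ _ y v
  show jinvAt k v.1 (v.ext L) ((groupCohomology.map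
      (AlgEquiv.restrictNormalHom (F := k) (K₁ := L) K) (ideleInfl k K L) 2).hom y)
    = jinvAt k v.1 (v.ext K) y
  rw [jinvAt_infl k K L v.1 (v.ext L) y]
  refine congrArg (fun f => f y) (jinvAt_eq_of_comp_eq k (v.ext K)
    ((v.ext L).comp (algebraMap K L)) ?_)
  rw [RingHom.comp_assoc, ← IsScalarTower.algebraMap_eq, FinPlace.ext_comp L v,
    FinPlace.ext_comp K v]

end Fermat.Agent.S55.H16
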