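/-
Program C (S55), package C8, leaf (CYC-LOC) (helper16): `H29.CycLocStatement`.

If the local invariant at a finite place `v` of the cyclic class `cycClass σ a`, `a ∈ kˣ`, of a
Kummer layer `K = k(β)`, `β ^ p = g`, vanishes, then `a` is a local norm at `v`.

Proof.  `F = k_v`, `L = K_w`, `G' = Gal(L/F) ↪ G = Gal(K/k)` (`locGalToGlobal`, injective).
* If `g` is a `p`-th power in `F`, the Kummer norm group is everything (`H83`).
* Otherwise `X^p - g` is irreducible over `F`, so `[L : F] = p` and `G' ≃ G`; by CY6 the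
  localisation of `cycClass σ a` is `cycClass τ a`, `τ` the generator of `G'` over `σ`; `inv` is
  injective (C3), so this class vanishes, and by CY3 `a` is a norm from `L = F(β)`.
-/
import Fermat.Agent.S55.H29.C8Hasse
import Fermat.Agent.S55.H66.C3Main
import Fermat.Agent.S55.H71.LocGal

set_option autoImplicit false
set_option linter.unusedSectionVars false

open CategoryTheory groupCohomology Rep Polynomial

noncomputable section

namespace Fermat.Agent.S55.H16

open Fermat.Agent.S55.H88 Fermat.Agent.S55.H66

section Local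

variable (q : ℕ) [Fact q.Prime]
variable (k K : Type) [Field k] [NumberField k] [Field K] [NumberField K] [Algebra k K]
  [IsGalois k K] (τ' : K →+* PadicAlgCl q)

/-- `k_v` is finite over `ℚ_q`. -/
theorem finiteDimensional_locBase : FiniteDimensional ℚ_[q] (locBase q k τ') :=
  locFieldFiniteStatement_holds q k (τ'.comp (algebraMap k K))

/-- `K_w / k_v` is finite. -/
theorem finiteDimensional_locExt' : FiniteDimensional (locBase q k τ') (locExt q k τ') :=
  H71.finiteDimensional_locExt q (k := k) τ'

/-- `K_w / k_v` is Galois. -/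
theorem isGalois_locExt' : IsGalois (locBase q k τ') (locExt q k τ') :=
  H71.isGalois_locExt q (k := k) τ'

/-- The decomposition map `Gal(K_w / k_v) → Gal(K / k)` is injective. -/
theorem locGalToGlobal_injective : Function.Injective (locGalToGlobal q k τ') := by
  rw [injective_iff_map_eq_one]
  intro α hα
  have h : (α : locExt q k τ' →ₐ[locBase q k τ'] locExt q k τ') = AlgHom.id _ _ := by
    refine H71.algHom_ext_locExt q (k := k) τ' _ _ fun x => ?_
    show α (locExtEmb q k τ' x) = locExtEmb q k τ' x
    rw [locGalToGlobal_spec, hα]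
    rfl
  exact AlgEquiv.ext fun y =>
    congrArg (fun φ : locExt q k τ' →ₐ[locBase q k τ'] locExt q k τ' => φ y) h

/-- An element of `kˣ`, as an element of the Galois module `Kˣ`, is invariant. -/
theorem unitOfBase_invariant (a : kˣ) (s : K ≃ₐ[k] K) :
    (Rep.ofAlgebraAutOnUnits k K).ρ s (H29.unitOfBase k K a) = H29.unitOfBase k K a := by
  apply Additive.toMul.injective
  apply Units.ext
  exact s.commutes (a : k)

/-- The localisation of an element of `kˣ` is invariant under the local Galois group. -/
theorem globalToLocUnits_invariant (a : kˣ)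
    (s : locExt q k τ' ≃ₐ[locBase q k τ'] locExt q k τ') :
    (Rep.ofAlgebraAutOnUnits (locBase q k τ') (locExt q k τ')).ρ s
        ((globalToLocUnits q k τ').hom (H29.unitOfBase k K a)) =
      (globalToLocUnits q k τ').hom (H29.unitOfBase k K a) := by
  have h1 := Rep.hom_comm_apply (globalToLocUnits q k τ') s (H29.unitOfBase k K a)
  have h2 : (Rep.res (locGalToGlobal q k τ') (Rep.ofAlgebraAutOnUnits k K)).ρ s
      (H29.unitOfBase k K a) = H29.unitOfBase k K a :=
    unitOfBase_invariant k K a (locGalToGlobal q k τ' s)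
  rw [← h1, h2]

/-- The value of the localisation of an element of `kˣ`. -/
theorem globalToLocUnits_unitOfBase (a : kˣ) :
    ((Additive.toMul ((globalToLocUnits q k τ').hom (H29.unitOfBase k K a)) :
        (locExt q k τ')ˣ) : locExt q k τ') =
      algebraMap (locBase q k τ') (locExt q k τ')
        (locEmb q (τ'.comp (algebraMap k K)) (a : k)) := rfl

/-- The underlying element of `L`, additively, of an element of the Galois module `Lˣ`. -/
def toL : (Rep.ofAlgebraAutOnUnits (locBase q k τ') (locExt q k τ')) →+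
    Additive (locExt q k τ') where
  toFun x := Additive.ofMul
    (((Additive.toMul (show Additive (locExt q k τ')ˣ from x)) : (locExt q k τ')ˣ) :
      locExt q k τ')
  map_zero' := rfl
  map_add' _ _ := rfl

/-- A norm element of the Galois module `Lˣ` is the product of the conjugates. -/
theorem prod_conj_of_sum_ρ [Fintype (locExt q k τ' ≃ₐ[locBase q k τ'] locExt q k τ')]
    (b a' : Rep.ofAlgebraAutOnUnits (locBase q k τ') (locExt q k τ'))
    (h : ∑ s : locExt q k τ' ≃ₐ[locBase q k τ'] locExt q k τ',
      (Rep.ofAlgebraAutOnUnits (locBase q k τ') (locExt q k τ')).ρ s b = a') :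
    ∏ s : locExt q k τ' ≃ₐ[locBase q k τ'] locExt q k τ',
        s (Additive.toMul (toL q k K τ' b)) = Additive.toMul (toL q k K τ' a') := by
  have h1 := congrArg (toL q k K τ') h
  rw [map_sum] at h1
  have h2 := congrArg Additive.toMul h1
  rw [toMul_sum] at h2
  exact h2

/-- **(CYC-LOC) at an embedding `τ'` of `K`.** -/
theorem cycLoc_at (p : ℕ) (hp : p.Prime) (hdeg : Module.finrank k K = p) (ζ : k)
    (hζ : IsPrimitiveRoot ζ p) (g : kˣ) (β : K) (hβ : β ^ p = algebraMap k K g)
    (σ : K ≃ₐ[k] K) (hσ : ∀ s : K ≃ₐ[k] K, s ∈ Subgroup.zpowers σ) (a : kˣ)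
    (h0 : linvAt q k τ' (cycClass (Rep.ofAlgebraAutOnUnits k K) σ (H29.unitOfBase k K a)) = 0) :
    Units.map (locEmb q (τ'.comp (algebraMap k K))).toMonoidHom a ∈
      H8.kummerNormGroup p
        (((Units.map (locEmb q (τ'.comp (algebraMap k K))).toMonoidHom g :
          (locField q (τ'.comp (algebraMap k K)))ˣ)) :
            locField q (τ'.comp (algebraMap k K))) := by
  classical
  have : FiniteDimensional k K := Module.finite_of_finrank_pos (by rw [hdeg]; exact hp.pos)
  have := finiteDimensional_locBase q k K τ'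
  have := finiteDimensional_locExt' q k K τ'
  have := isGalois_locExt' q k K τ'
  set gF : locBase q k τ' := locEmb q (τ'.comp (algebraMap k K)) (g : k) with hgF
  show _ ∈ H8.kummerNormGroup p gF
  by_cases hpow : ∃ c : locBase q k τ', c ^ p = gF
  · obtain ⟨c, hc⟩ := hpow
    have hζ' : IsPrimitiveRoot (locEmb q (τ'.comp (algebraMap k K)) ζ) p :=
      hζ.map_of_injective (locEmb q (τ'.comp (algebraMap k K))).injective
    have hc0 : c ≠ 0 := by
      rintro rfl
      rw [zero_pow hp.ne_zero] at hc
      exact (Units.map (locEmb q (τ'.comp (algebraMap k K))).toMonoidHom g).ne_zero hc.symm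
    have htop : H8.kummerNormGroup p gF = ⊤ :=
      H83.kummerNormGroup_eq_top_of_pow hζ' hp.ne_zero hc0 hc
    rw [htop]
    exact Subgroup.mem_top _
  · replace hpow : ∀ c : locBase q k τ', c ^ p ≠ gF := fun c hc => hpow ⟨c, hc⟩
    set βL : locExt q k τ' := locExtEmb q k τ' β with hβL
    have hβLp : βL ^ p = algebraMap (locBase q k τ') (locExt q k τ') gF := by
      rw [hβL, ← map_pow, hβ]
      rfl
    have hirr : Irreducible (X ^ p - C gF : (locBase q k τ')[X]) :=
      X_pow_sub_C_irreducible_of_prime hp hpow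
    have hroot : Polynomial.aeval βL (X ^ p - C gF : (locBase q k τ')[X]) = 0 := by
      rw [map_sub, map_pow, aeval_X, aeval_C, hβLp, sub_self]
    have hmin : minpoly (locBase q k τ') βL = X ^ p - C gF :=
      (minpoly.eq_of_irreducible_of_monic hirr hroot (monic_X_pow_sub_C gF hp.ne_zero)).symm
    have hle : p ≤ Module.finrank (locBase q k τ') (locExt q k τ') := by
      have h1 := minpoly.natDegree_le (A := locBase q k τ') βL
      rwa [hmin, natDegree_X_pow_sub_C] at h1
    have hinj := locGalToGlobal_injective q k K τ'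
    have hcardG : Nat.card (K ≃ₐ[k] K) = p := by rw [IsGalois.card_aut_eq_finrank, hdeg]
    have hcardG' : Nat.card (locExt q k τ' ≃ₐ[locBase q k τ'] locExt q k τ') =
        Module.finrank (locBase q k τ') (locExt q k τ') := IsGalois.card_aut_eq_finrank _ _
    have hle2 : Nat.card (locExt q k τ' ≃ₐ[locBase q k τ'] locExt q k τ') ≤
        Nat.card (K ≃ₐ[k] K) := Nat.card_le_card_of_injective _ hinj
    have hdegL : Module.finrank (locBase q k τ') (locExt q k τ') = p := by omega
    have hbij : Function.Bijective (locGalToGlobal q k τ') :=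
      hinj.bijective_of_nat_card_le (by omega)
    obtain ⟨τ, hτ⟩ := hbij.2 σ
    have hτgen : ∀ s : locExt q k τ' ≃ₐ[locBase q k τ'] locExt q k τ',
        s ∈ Subgroup.zpowers τ := by
      intro s
      obtain ⟨n, hn⟩ := Subgroup.mem_zpowers_iff.1 (hσ (locGalToGlobal q k τ' s))
      refine Subgroup.mem_zpowers_iff.2 ⟨n, hinj ?_⟩
      rw [map_zpow, hτ, hn]
    have hord : 1 * orderOf τ = orderOf σ := by
      rw [one_mul, ← hτ, orderOf_injective (locGalToGlobal q k τ') hinj τ]
    have hres := H80.leafCycRes ℤ (K ≃ₐ[k] K)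
      (locExt q k τ' ≃ₐ[locBase q k τ'] locExt q k τ')
      (Rep.ofAlgebraAutOnUnits k K) (Rep.ofAlgebraAutOnUnits (locBase q k τ') (locExt q k τ'))
      (locGalToGlobal q k τ') (globalToLocUnits q k τ') σ τ 1 hσ hτgen hinj
      (by rw [pow_one]; exact hτ) hord (H29.unitOfBase k K a) (unitOfBase_invariant k K a)
    have hinv := (H66.c3_inv q (locBase q k τ') (locExt q k τ')).2.1
    have h0' : H66.inv q (locExt q k τ')
        ((map (locGalToGlobal q k τ') (globalToLocUnits q k τ') 2).hom
          (cycClass (Rep.ofAlgebraAutOnUnits k K) σ (H29.unitOfBase k K a))) = 0 := h0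
    rw [hres] at h0'
    have hz : cycClass (Rep.ofAlgebraAutOnUnits (locBase q k τ') (locExt q k τ')) τ
        ((globalToLocUnits q k τ').hom (H29.unitOfBase k K a)) = 0 :=
      hinv (h0'.trans (map_zero _).symm)
    obtain ⟨b, hb⟩ := (H37.leafCycZero ℤ _
      (Rep.ofAlgebraAutOnUnits (locBase q k τ') (locExt q k τ')) τ hτgen _
      (globalToLocUnits_invariant q k K τ' a)).1 hz
    have hprod := prod_conj_of_sum_ρ q k K τ' b _ hb
    have hnorm := Algebra.norm_eq_prod_automorphisms (locBase q k τ')
      (Additive.toMul (toL q k K τ' b))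
    have hN : Algebra.norm (locBase q k τ') (Additive.toMul (toL q k K τ' b)) =
        locEmb q (τ'.comp (algebraMap k K)) (a : k) := by
      apply (algebraMap (locBase q k τ') (locExt q k τ')).injective
      rw [hnorm, hprod]
      rfl
    rw [H83.kummerNormGroup_eq_range_norm_of_not_pow hp hpow βL hβLp hdegL]
    exact ⟨Additive.toMul (show Additive (locExt q k τ')ˣ from b), Units.ext hN⟩

/-- (CYC-LOC) at an embedding `τ'` of `K` above a given embedding `τ₀` of `k`. -/
theorem cycLoc_above (τ₀ : k →+* PadicAlgCl q) (hτ : τ'.comp (algebraMap k K) = τ₀)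
    (p : ℕ) (hp : p.Prime) (hdeg : Module.finrank k K = p) (ζ : k)
    (hζ : IsPrimitiveRoot ζ p) (g : kˣ) (β : K) (hβ : β ^ p = algebraMap k K g)
    (σ : K ≃ₐ[k] K) (hσ : ∀ s : K ≃ₐ[k] K, s ∈ Subgroup.zpowers σ) (a : kˣ)
    (h0 : linvAt q k τ' (cycClass (Rep.ofAlgebraAutOnUnits k K) σ (H29.unitOfBase k K a)) = 0) :
    Units.map (locEmb q τ₀).toMonoidHom a ∈
      H8.kummerNormGroup p
        (((Units.map (locEmb q τ₀).toMonoidHom g : (locField q τ₀)ˣ)) : locField q τ₀) := by
  subst hτ
  exact cycLoc_at q k K τ' p hp hdeg ζ hζ g β hβ σ hσ a h0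

end Local

attribute [local instance] factOfPrimes

/-- **Leaf (CYC-LOC)**, verbatim. -/
theorem cycLocStatement : H29.CycLocStatement := by
  intro k K _ _ _ _ _ _ p hp _ hdeg ζ hζ g _ β hβ σ hσ a v h0
  exact cycLoc_above (v.1 : ℕ) k K (v.ext K) v.emb (v.ext_comp K) p hp hdeg ζ hζ g β hβ σ hσ a h0

end Fermat.Agent.S55.H16
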