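/-
Program C (S55), package C8, leaf (R-WA) of helper6's spec `H6/RecCycloSpec.lean` (helper16):

  `weakApproxNormStatement : H6.WeakApproxNormStatement`.

If `a₀ ∈ kˣ` is a local norm at every embedding `τ' : E →+* PadicAlgCl q` for every prime
`q ∣ m`, then there is `b ∈ Eˣ` with `a₀ / N_{E/k}(b)` a one-unit at every embedding of `k`
into `PadicAlgCl q`, `q ∣ m`.

Proof.  For one prime `q`: for each place `v` of `k` above `q` choose an embedding `τ_v'` of `E`
above the chosen embedding of `v`, a local norm preimage `β_v`, and the semi-local unit `u_v`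
with value `β_v` at `τ_v'` and `1` at the other places (`H88.exists_unit_of_split`).  The
product `u = ∏_v u_v` satisfies `∏_{s ∈ Gal(E/k)} u(τ' ∘ s) = τ'(a₀)` for EVERY embedding `τ'`
(decomposition group `≃ Gal(E_w/k_v)`, `H71.locToGlob`).  Weak approximation at the finitely
many primes dividing `m` (`H10.semiLocalDense_finset`) gives `b ∈ E` close to `u`, and the
ultrametric inequality finishes.
-/
import Fermat.Agent.S55.H6.RecCycloSpec
import Fermat.Agent.S55.H71.LocGal
import Fermat.Agent.S55.H10.SemiLocalDenseFin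

set_option autoImplicit false
set_option linter.unusedSectionVars false

open scoped IntermediateField

noncomputable section

namespace Fermat.Agent.S55.H16

open Fermat.Agent.S55.H88

/-! ### An ultrametric product estimate -/

section Ultra

variable {F : Type*} [NormedField F]

theorem norm_eq_of_norm_sub_lt (hna : IsNonarchimedean (norm : F → ℝ)) {a b : F}
    (h : ‖a - b‖ < ‖b‖) : ‖a‖ = ‖b‖ := by
  apply le_antisymm
  · have h1 := hna (a - b) b
    rw [sub_add_cancel] at h1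
    exact h1.trans (max_le h.le le_rfl)
  · by_contra hlt
    have hlt' : ‖a‖ < ‖b‖ := not_le.1 hlt
    have h1 := hna (b - a) a
    rw [sub_add_cancel, norm_sub_rev] at h1
    exact absurd h1 (not_le.2 (max_lt h hlt'))

theorem norm_prod_sub_prod_lt (hna : IsNonarchimedean (norm : F → ℝ)) {ι : Type*}
    (S : Finset ι) (x y : ι → F) (h : ∀ i ∈ S, ‖x i - y i‖ < ‖y i‖) :
    ‖∏ i ∈ S, x i - ∏ i ∈ S, y i‖ < ‖∏ i ∈ S, y i‖ := by
  classical
  induction S using Finset.induction_on with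
  | empty => simp
  | insert a S ha ih =>
    have hS := ih (fun i hi => h i (Finset.mem_insert_of_mem hi))
    have ha' := h a (Finset.mem_insert_self a S)
    rw [Finset.prod_insert ha, Finset.prod_insert ha]
    have hXY : ‖∏ i ∈ S, x i‖ = ‖∏ i ∈ S, y i‖ := norm_eq_of_norm_sub_lt hna hS
    have hY : 0 < ‖∏ i ∈ S, y i‖ := lt_of_le_of_lt (norm_nonneg _) hS
    have hb : 0 < ‖y a‖ := lt_of_le_of_lt (norm_nonneg _) ha'
    have e : x a * ∏ i ∈ S, x i - y a * ∏ i ∈ S, y i =
        (x a - y a) * ∏ i ∈ S, x i + y a * (∏ i ∈ S, x i - ∏ i ∈ S, y i) := by ring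
    rw [e, norm_mul (y a)]
    refine lt_of_le_of_lt (hna _ _) (max_lt ?_ ?_)
    · rw [norm_mul, hXY]
      exact mul_lt_mul_of_pos_right ha' hY
    · rw [norm_mul]
      exact mul_lt_mul_of_pos_left hS hb

theorem exists_pos_le_of_finite {ι : Type*} [Finite ι] (f : ι → ℝ) (hf : ∀ i, 0 < f i) :
    ∃ δ : ℝ, 0 < δ ∧ ∀ i, δ ≤ f i := by
  rcases isEmpty_or_nonempty ι with h | h
  · exact ⟨1, one_pos, fun i => (h.false i).elim⟩
  · obtain ⟨i₀, hi₀⟩ := Finite.exists_min f
    exact ⟨f i₀, hf i₀, hi₀⟩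

end Ultra

/-! ### One prime -/

section OnePrime

variable (q : ℕ) [Fact q.Prime]

/-- Evaluation of a semi-local unit at an embedding. -/
def evalUnit (E : Type) [Field E] (τ : E →+* PadicAlgCl q) :
    (semiLocal q E)ˣ →* PadicAlgCl q :=
  ((semiLocalEval q E τ : semiLocal q E →ₐ[ℚ_[q]] PadicAlgCl q) :
    semiLocal q E →* PadicAlgCl q).comp (Units.coeHom _)

theorem evalUnit_apply (E : Type) [Field E] (τ : E →+* PadicAlgCl q) (u : (semiLocal q E)ˣ) :
    evalUnit q E τ u = ((u : semiLocal q E) : (E →+* PadicAlgCl q) → PadicAlgCl q) τ := rfl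

theorem evalUnit_comp (E : Type) [Field E] (u : (semiLocal q E)ˣ)
    (g : PadicAlgCl q ≃ₐ[ℚ_[q]] PadicAlgCl q) (τ : E →+* PadicAlgCl q) :
    evalUnit q E ((g : PadicAlgCl q →+* PadicAlgCl q).comp τ) u = g (evalUnit q E τ u) :=
  semiLocal_apply_comp (u : semiLocal q E) g τ

theorem evalUnit_ne_zero (E : Type) [Field E] (τ : E →+* PadicAlgCl q) (u : (semiLocal q E)ˣ) :
    evalUnit q E τ u ≠ 0 := by
  intro h
  have h1 : evalUnit q E τ u * evalUnit q E τ u⁻¹ = 1 := by
    rw [← map_mul, mul_inv_cancel, map_one]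
  rw [h, zero_mul] at h1
  exact zero_ne_one h1

variable (k E : Type) [Field k] [NumberField k] [Field E] [NumberField E] [Algebra k E]
  [IsGalois k E]

/-- One place: a semi-local unit supported at the place of `τ₁` whose "norm" is `a₀` at the
embeddings above the place of `τ₁ ∘ algebraMap`, and `1` at the others. -/
theorem exists_unit_norm_one_place (τ₁ : E →+* PadicAlgCl q) (a₀ : k) (ha₀ : a₀ ≠ 0)
    (β : locExt q k τ₁)
    (hβ : Algebra.norm (locBase q k τ₁) β = locEmb q (τ₁.comp (algebraMap k E)) a₀) :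
    ∃ u : (semiLocal q E)ˣ,
      (∀ τ' : E →+* PadicAlgCl q,
        (placeSetoid q k).r (τ₁.comp (algebraMap k E)) (τ'.comp (algebraMap k E)) →
          ∏ s : E ≃ₐ[k] E, evalUnit q E (τ'.comp ((s : E ≃+* E) : E →+* E)) u =
            τ' (algebraMap k E a₀)) ∧
      (∀ τ' : E →+* PadicAlgCl q,
        ¬ (placeSetoid q k).r (τ₁.comp (algebraMap k E)) (τ'.comp (algebraMap k E)) →
          ∏ s : E ≃ₐ[k] E, evalUnit q E (τ'.comp ((s : E ≃+* E) : E →+* E)) u = 1) := by
  classical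
  have hfd : FiniteDimensional (locBase q k τ₁) (locExt q k τ₁) :=
    H71.finiteDimensional_locExt q (k := k) τ₁
  have hgal : IsGalois (locBase q k τ₁) (locExt q k τ₁) := H71.isGalois_locExt q (k := k) τ₁
  have hfree : Module.Free (locBase q k τ₁) (locExt q k τ₁) := Module.Free.of_divisionRing _ _
  have hβ0 : (β : PadicAlgCl q) ≠ 0 := by
    intro h0
    have h1 : β = 0 := Subtype.ext h0
    rw [h1, Algebra.norm_zero] at hβ
    have h2 : τ₁ (algebraMap k E a₀) = 0 := (congrArg Subtype.val hβ).symm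
    exact ha₀ ((map_eq_zero (algebraMap k E)).1 ((map_eq_zero τ₁).1 h2))
  obtain ⟨u, hu1, hu2⟩ := exists_unit_of_split q E (semiLocalSplitStatement_holds q E) τ₁
    (β : PadicAlgCl q) β.2 hβ0
  -- the product at `τ₁`
  have hbase : ∏ s : E ≃ₐ[k] E, evalUnit q E (τ₁.comp ((s : E ≃+* E) : E →+* E)) u =
      τ₁ (algebraMap k E a₀) := by
    have hinj := H71.locToGlob_injective q (k := k) τ₁
    have hrange := H71.range_locToGlob q (k := k) τ₁
    have h1 : ∀ α : locExt q k τ₁ ≃ₐ[locBase q k τ₁] locExt q k τ₁,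
        ((α β : locExt q k τ₁) : PadicAlgCl q) =
          evalUnit q E (τ₁.comp (((H71.locToGlob q (k := k) τ₁ α : E ≃ₐ[k] E) : E ≃+* E) :
            E →+* E)) u := by
      intro α
      have hs : H71.locToGlob q (k := k) τ₁ α ∈ decompGroup q k τ₁ := by
        rw [← hrange]
        exact ⟨α, rfl⟩
      obtain ⟨g, hg⟩ := hs
      have h2 : H71.globToLoc q τ₁ (H71.locToGlob q (k := k) τ₁ α) g hg = α := by
        apply hinj
        refine AlgEquiv.ext fun x => τ₁.injective ?_
        rw [H71.locToGlob_spec]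
        exact (RingHom.congr_fun hg x).symm
      rw [hg, evalUnit_comp, evalUnit_apply, hu1]
      conv_lhs => rw [← h2]
      rfl
    have h3 : ∀ s : E ≃ₐ[k] E, s ∉ Set.range (H71.locToGlob q (k := k) τ₁) →
        evalUnit q E (τ₁.comp ((s : E ≃+* E) : E →+* E)) u = 1 := by
      intro s hs
      apply hu2
      intro hr
      apply hs
      have h4 : s ∈ (H71.locToGlob q (k := k) τ₁).range := by
        rw [hrange]
        exact hr
      exact h4
    have h4 := Algebra.norm_eq_prod_automorphisms (locBase q k τ₁) β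
    have h5 : ((algebraMap (locBase q k τ₁) (locExt q k τ₁)
        (Algebra.norm (locBase q k τ₁) β) : locExt q k τ₁) : PadicAlgCl q) =
        ∏ α : locExt q k τ₁ ≃ₐ[locBase q k τ₁] locExt q k τ₁,
          ((α β : locExt q k τ₁) : PadicAlgCl q) := by
      rw [h4]
      exact map_prod (locExt q k τ₁).val _ _
    have h6 : ∏ α : locExt q k τ₁ ≃ₐ[locBase q k τ₁] locExt q k τ₁,
        ((α β : locExt q k τ₁) : PadicAlgCl q) = τ₁ (algebraMap k E a₀) := by
      rw [← h5, hβ]
      rfl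
    exact (Fintype.prod_of_injective _ hinj _ _ h3 h1).symm.trans h6
  refine ⟨u, fun τ' hr => ?_, fun τ' hr => ?_⟩
  · obtain ⟨g, hg⟩ := hr
    have h6 : τ₁.comp (algebraMap k E) =
        (((g⁻¹ : PadicAlgCl q ≃ₐ[ℚ_[q]] PadicAlgCl q) : PadicAlgCl q →+* PadicAlgCl q).comp
          τ').comp (algebraMap k E) := by
      rw [RingHom.comp_assoc, hg]
      refine RingHom.ext fun y => ?_
      exact (g.symm_apply_apply _).symm
    obtain ⟨s₀, hs₀⟩ := exists_algEquiv_comp_eq q τ₁ _ h6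
    have h7 : ∀ s : E ≃ₐ[k] E, τ'.comp ((s : E ≃+* E) : E →+* E) =
        (g : PadicAlgCl q →+* PadicAlgCl q).comp
          (τ₁.comp (((s₀ * s : E ≃ₐ[k] E) : E ≃+* E) : E →+* E)) := by
      intro s
      refine RingHom.ext fun x => ?_
      have h8 : g⁻¹ (τ' (s x)) = τ₁ (s₀ (s x)) := RingHom.congr_fun hs₀ (s x)
      show τ' (s x) = g (τ₁ (s₀ (s x)))
      rw [← h8]
      exact (g.apply_symm_apply _).symm
    calc ∏ s : E ≃ₐ[k] E, evalUnit q E (τ'.comp ((s : E ≃+* E) : E →+* E)) u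
        = ∏ s : E ≃ₐ[k] E,
            g (evalUnit q E (τ₁.comp (((s₀ * s : E ≃ₐ[k] E) : E ≃+* E) : E →+* E)) u) :=
          Finset.prod_congr rfl (fun s _ => by rw [h7 s, evalUnit_comp])
      _ = g (∏ s : E ≃ₐ[k] E,
            evalUnit q E (τ₁.comp (((s₀ * s : E ≃ₐ[k] E) : E ≃+* E) : E →+* E)) u) :=
          (map_prod g _ _).symm
      _ = g (∏ s : E ≃ₐ[k] E, evalUnit q E (τ₁.comp ((s : E ≃+* E) : E →+* E)) u) := by
          congr 1
          exact Fintype.prod_equiv (Equiv.mulLeft s₀) _ _ (fun s => rfl)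
      _ = g (τ₁ (algebraMap k E a₀)) := by rw [hbase]
      _ = τ' (algebraMap k E a₀) := (RingHom.congr_fun hg a₀).symm
  · refine Finset.prod_eq_one fun s _ => ?_
    apply hu2
    rintro ⟨g, hg⟩
    apply hr
    refine ⟨g, RingHom.ext fun y => ?_⟩
    have h9 : τ' (s (algebraMap k E y)) = g (τ₁ (algebraMap k E y)) :=
      RingHom.congr_fun hg (algebraMap k E y)
    rw [s.commutes] at h9
    exact h9

/-- One prime: a semi-local unit of `E ⊗ ℚ_q` whose norm is `a₀`, when `a₀` is a local norm at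
every embedding of `E` above `q`. -/
theorem exists_semiLocal_unit_norm (a₀ : k) (ha₀ : a₀ ≠ 0)
    (hloc : ∀ τ' : E →+* PadicAlgCl q, ∃ β : locExt q k τ',
      Algebra.norm (locBase q k τ') β = locEmb q (τ'.comp (algebraMap k E)) a₀) :
    ∃ u : (semiLocal q E)ˣ, ∀ τ' : E →+* PadicAlgCl q,
      ∏ s : E ≃ₐ[k] E, evalUnit q E (τ'.comp ((s : E ≃+* E) : E →+* E)) u =
        τ' (algebraMap k E a₀) := by
  classical
  have hfin : Finite (k →+* PadicAlgCl q) := H10.finite_ringHom_padicAlgCl q k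
  have hfinP : Finite (PlaceAbove q k) :=
    Finite.of_surjective (placeOf q) (fun v => ⟨v.emb, Quotient.out_eq v⟩)
  let _ : Fintype (PlaceAbove q k) := Fintype.ofFinite _
  have hext : ∀ v : PlaceAbove q k, ∃ τ₁ : E →+* PadicAlgCl q,
      τ₁.comp (algebraMap k E) = v.emb := fun v => exists_extend q v.emb
  choose ext hext using hext
  have hβ : ∀ v : PlaceAbove q k, ∃ β : locExt q k (ext v),
      Algebra.norm (locBase q k (ext v)) β = locEmb q ((ext v).comp (algebraMap k E)) a₀ :=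
    fun v => hloc (ext v)
  choose β hβ using hβ
  have hu := fun v : PlaceAbove q k =>
    exists_unit_norm_one_place q k E (ext v) a₀ ha₀ (β v) (hβ v)
  choose u hu1 hu2 using hu
  refine ⟨∏ v, u v, fun τ' => ?_⟩
  have h1 : ∀ s : E ≃ₐ[k] E,
      evalUnit q E (τ'.comp ((s : E ≃+* E) : E →+* E)) (∏ v, u v) =
        ∏ v, evalUnit q E (τ'.comp ((s : E ≃+* E) : E →+* E)) (u v) := fun s => map_prod _ _ _
  rw [Finset.prod_congr rfl (fun s _ => h1 s), Finset.prod_comm]
  have h2 : ∀ v : PlaceAbove q k,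
      ∏ s : E ≃ₐ[k] E, evalUnit q E (τ'.comp ((s : E ≃+* E) : E →+* E)) (u v) =
        if placeOf q (τ'.comp (algebraMap k E)) = v then τ' (algebraMap k E a₀) else 1 := by
    intro v
    have hiff : (placeSetoid q k).r ((ext v).comp (algebraMap k E))
        (τ'.comp (algebraMap k E)) ↔ placeOf q (τ'.comp (algebraMap k E)) = v := by
      rw [hext v]
      have hv : placeOf q v.emb = v := Quotient.out_eq v
      constructor
      · intro h
        rw [← hv]
        exact ((Quotient.eq (r := placeSetoid q k)).2 h).symm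
      · intro h
        exact (Quotient.eq (r := placeSetoid q k)).1 (hv.trans h.symm)
    by_cases hv : placeOf q (τ'.comp (algebraMap k E)) = v
    · rw [if_pos hv]
      exact hu1 v τ' (hiff.2 hv)
    · rw [if_neg hv]
      exact hu2 v τ' (fun h => hv (hiff.1 h))
  rw [Finset.prod_congr rfl (fun v _ => h2 v), Finset.prod_ite_eq, if_pos (Finset.mem_univ _)]

end OnePrime

/-! ### The leaf -/

attribute [local instance] factOfPrimes

/-- **Leaf (R-WA)**, verbatim. -/
theorem weakApproxNormStatement : H6.WeakApproxNormStatement := by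
  intro k E _ _ _ _ _ _ m hm a₀ hloc
  classical
  -- the primes dividing `m`
  have hfinT : {q : Nat.Primes | (q : ℕ) ∣ m}.Finite :=
    Set.Finite.subset ((Finset.finite_toSet (Nat.divisors m)).preimage
      (f := fun q : Nat.Primes => (q : ℕ)) Nat.Primes.coe_nat_injective.injOn)
      (fun q hq => Finset.mem_coe.2 (Nat.mem_divisors.2 ⟨hq, hm⟩))
  -- the semi-local units
  have hu : ∀ q : Nat.Primes, ∃ u : (semiLocal (q : ℕ) E)ˣ, (q : ℕ) ∣ m →
      ∀ τ' : E →+* PadicAlgCl (q : ℕ),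
        ∏ s : E ≃ₐ[k] E, evalUnit (q : ℕ) E (τ'.comp ((s : E ≃+* E) : E →+* E)) u =
          τ' (algebraMap k E (a₀ : k)) := by
    intro q
    by_cases hq : (q : ℕ) ∣ m
    · obtain ⟨u, hu⟩ := exists_semiLocal_unit_norm (q : ℕ) k E (a₀ : k) a₀.ne_zero
        (fun τ' => hloc (q : ℕ) hq τ')
      exact ⟨u, fun _ => hu⟩
    · exact ⟨1, fun h => absurd h hq⟩
  choose u hu using hu
  -- lower bounds for the values
  have hδ : ∀ q : Nat.Primes, ∃ δ : ℝ, 0 < δ ∧ ∀ τ' : E →+* PadicAlgCl (q : ℕ),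
      δ ≤ ‖evalUnit (q : ℕ) E τ' (u q)‖ := by
    intro q
    have hfin : Finite (E →+* PadicAlgCl (q : ℕ)) := H10.finite_ringHom_padicAlgCl (q : ℕ) E
    exact exists_pos_le_of_finite _ (fun τ' => norm_pos_iff.2 (evalUnit_ne_zero (q : ℕ) E τ' (u q)))
  choose δ hδpos hδ using hδ
  obtain ⟨ε, hεpos, hε⟩ : ∃ ε : ℝ, 0 < ε ∧ ∀ q : hfinT.toFinset, ε ≤ δ (q : Nat.Primes) :=
    exists_pos_le_of_finite _ (fun q => hδpos (q : Nat.Primes))
  obtain ⟨x, hx⟩ := H10.semiLocalDense_finset E hfinT.toFinset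
    (fun q => ((u q : (semiLocal (q : ℕ) E)ˣ) : semiLocal (q : ℕ) E)) hεpos
  -- the key estimate at an embedding of `E`
  have key : ∀ q : Nat.Primes, (q : ℕ) ∣ m → ∀ τ' : E →+* PadicAlgCl (q : ℕ),
      ‖τ' (algebraMap k E (Algebra.norm k x)) - τ' (algebraMap k E (a₀ : k))‖ <
        ‖τ' (algebraMap k E (a₀ : k))‖ := by
    intro q hq τ'
    have hqT : q ∈ hfinT.toFinset := (Set.Finite.mem_toFinset hfinT).2 hq
    have h1 : τ' (algebraMap k E (Algebra.norm k x)) = ∏ s : E ≃ₐ[k] E, τ' (s x) := by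
      rw [Algebra.norm_eq_prod_automorphisms, map_prod]
    rw [h1, ← hu q hq τ']
    refine norm_prod_sub_prod_lt (PadicAlgCl.isNonarchimedean (q : ℕ)) _ _ _ (fun s _ => ?_)
    have h2 := hx q hqT (τ'.comp ((s : E ≃+* E) : E →+* E))
    have h3 : ε ≤ ‖evalUnit (q : ℕ) E (τ'.comp ((s : E ≃+* E) : E →+* E)) (u q)‖ :=
      (hε ⟨q, hqT⟩).trans (hδ q _)
    rw [norm_sub_rev]
    exact lt_of_lt_of_le h2 h3
  -- conclusion at an embedding of `k`
  have fin : ∀ q : Nat.Primes, (q : ℕ) ∣ m → ∀ τ : k →+* PadicAlgCl (q : ℕ),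
      x ≠ 0 ∧ ‖τ ((a₀ : k) / Algebra.norm k x) - 1‖ < 1 := by
    intro q hq τ
    obtain ⟨τ', rfl⟩ := exists_extend (q : ℕ) (K := E) τ
    have hk := key q hq τ'
    have hA : ‖τ' (algebraMap k E (Algebra.norm k x))‖ = ‖τ' (algebraMap k E (a₀ : k))‖ :=
      norm_eq_of_norm_sub_lt (PadicAlgCl.isNonarchimedean (q : ℕ)) hk
    have hA0 : 0 < ‖τ' (algebraMap k E (a₀ : k))‖ := lt_of_le_of_lt (norm_nonneg _) hk
    have hB0 : τ' (algebraMap k E (Algebra.norm k x)) ≠ 0 := by
      rw [← norm_pos_iff, hA]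
      exact hA0
    have hx0 : x ≠ 0 := by
      rintro rfl
      apply hB0
      rw [Algebra.norm_zero, map_zero, map_zero]
    refine ⟨hx0, ?_⟩
    show ‖τ' (algebraMap k E ((a₀ : k) / Algebra.norm k x)) - 1‖ < 1
    rw [map_div₀, map_div₀, div_sub_one hB0, norm_div, div_lt_one (norm_pos_iff.2 hB0),
      norm_sub_rev, hA]
    exact hk
  by_cases hx0 : x = 0
  · refine ⟨1, fun q hqf hq τ => ?_⟩
    exact absurd hx0 (fin ⟨q, hqf.out⟩ hq τ).1
  · refine ⟨Units.mk0 x hx0, fun q hqf hq τ => ?_⟩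
    exact (fin ⟨q, hqf.out⟩ hq τ).2

end Fermat.Agent.S55.H16
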