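/-
Program C (S55), package C4, leaf `C4-HB-EX-HilbertExists` (helper16).

Generic existence of the Hilbert pairing on the space `X_H = levelHoms D H` of level-constant
homomorphisms `H → k`, from Shapiro surjectivity (SHS) and injectivity (SHI) in degree 2:

  `hilbertExists_of : ShapiroSurjStatement → ShapiroInjStatement → HilbertExistsStatement`.

Proof.  `Λ z := inv (aug_* [z])` is a linear functional on the level 2-cocycles `z` with values
in `k[G ⧸ H]`; by (SHI) with `w = 0` it only depends on the Shapiro restriction of `z`.  By (SHS)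
every product cocycle `(h₁, h₂) ↦ χ h₁ * ψ h₂` is a Shapiro restriction, so `B χ ψ := Λ z` for any
such `z` is well defined, and bilinear since the Shapiro restriction is linear.  Finally
`χ h₁ ψ h₂ + ψ h₁ χ h₂ = w h₂ - w (h₁ h₂) + w h₁` for `w = -(χ ψ)`, so `B χ ψ + B ψ χ = 0` by
(SHI).
-/
import Fermat.Agent.S55.H26.LocalHilbertSpec

set_option autoImplicit false

open CategoryTheory

noncomputable section

namespace Fermat.Agent.S55.H16

open Fermat.Agent.S55.H49 Fermat.Agent.S55.H26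

section Generic

variable {G : Type} [Group G] {k : Type} [Field k]

theorem shapiroRes_add (D : LevelDatum G) (H : Subgroup G)
    (z z' : cyc (lcComplex D (permRep k H)) 2) (h : H × H) :
    shapiroRes D H (z + z') h = shapiroRes D H z h + shapiroRes D H z' h := by
  show permCoeff H (lcVal z ![(h.1 : G), (h.2 : G)] + lcVal z' ![(h.1 : G), (h.2 : G)]) _ = _
  unfold permCoeff
  rw [map_add]
  rfl

theorem shapiroRes_sub (D : LevelDatum G) (H : Subgroup G)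
    (z z' : cyc (lcComplex D (permRep k H)) 2) (h : H × H) :
    shapiroRes D H (z - z') h = shapiroRes D H z h - shapiroRes D H z' h := by
  show permCoeff H (lcVal z ![(h.1 : G), (h.2 : G)] - lcVal z' ![(h.1 : G), (h.2 : G)]) _ = _
  unfold permCoeff
  rw [map_sub]
  rfl

theorem shapiroRes_smul (D : LevelDatum G) (H : Subgroup G) (c : k)
    (z : cyc (lcComplex D (permRep k H)) 2) (h : H × H) :
    shapiroRes D H (c • z) h = c * shapiroRes D H z h := by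
  show permCoeff H (c • lcVal z ![(h.1 : G), (h.2 : G)]) _ = _
  unfold permCoeff
  rw [map_smul]
  rfl

/-- The class map of level-constant cocycles, with values in `Hlc`. -/
def clsLc (D : LevelDatum G) (M : Rep.{0} k G) (n : ℕ) :
    cyc (lcComplex D M) n →ₗ[k] Hlc D M n :=
  (cls (lcComplex D M) n).hom

/-- The functional `z ↦ inv (aug_* [z])` on level 2-cocycles with values in `k[G ⧸ H]`. -/
def hilbFun (D : LevelDatum G) (χ₀ : G →* kˣ) (inv : Hlc D (mu χ₀) 2 →ₗ[k] k) (H : Subgroup G)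
    (hχ : ∀ s ∈ H, χ₀ s = 1) : cyc (lcComplex D (permRep k H)) 2 →ₗ[k] k :=
  inv ∘ₗ hlcMap D (augChar χ₀ H hχ) 2 ∘ₗ clsLc D (permRep k H) 2

theorem hilbFun_apply (D : LevelDatum G) (χ₀ : G →* kˣ) (inv : Hlc D (mu χ₀) 2 →ₗ[k] k)
    (H : Subgroup G) (hχ : ∀ s ∈ H, χ₀ s = 1) (z : cyc (lcComplex D (permRep k H)) 2) :
    hilbFun D χ₀ inv H hχ z =
      inv (hlcMap D (augChar χ₀ H hχ) 2 ((cls (lcComplex D (permRep k H)) 2).hom z)) := rfl

/-- (SHI): the functional vanishes on cocycles whose Shapiro restriction is a coboundary. -/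
theorem hilbFun_eq_zero (hI : ShapiroInjStatement) (D : LevelDatum G) (hN : D.HasNormalLevels)
    (χ₀ : G →* kˣ) (inv : Hlc D (mu χ₀) 2 →ₗ[k] k) (H : Subgroup G)
    (F : IntermediateField ℚ (AlgebraicClosure ℚ)) (hF : D.Lev F) (hFH : D.sub F ≤ H)
    (hfi : H.FiniteIndex) (hχ : ∀ s ∈ H, χ₀ s = 1) (z : cyc (lcComplex D (permRep k H)) 2)
    (w : H → k) (hw : IsLevelFun₁ D H w)
    (hz : ∀ h₁ h₂ : H, shapiroRes D H z (h₁, h₂) = w h₂ - w (h₁ * h₂) + w h₁) :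
    hilbFun D χ₀ inv H hχ z = 0 := by
  have h0 : clsLc D (permRep k H) 2 z = 0 := hI G k D hN H F hF hFH hfi z w hw hz
  show inv (hlcMap D (augChar χ₀ H hχ) 2 (clsLc D (permRep k H) 2 z)) = 0
  rw [h0, map_zero, map_zero]

/-- The product of two level-constant homomorphisms is a level-constant function on `H × H`. -/
theorem isLevelFun₂_prod (D : LevelDatum G) (H : Subgroup G) (χ ψ : levelHoms (k := k) D H) :
    IsLevelFun₂ D H (fun h : H × H => χ.1 h.1 * ψ.1 h.2) := by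
  obtain ⟨-, F₁, hF₁, h₁⟩ := χ.2
  obtain ⟨-, F₂, hF₂, h₂⟩ := ψ.2
  refine ⟨F₁ ⊔ F₂, D.sup hF₁ hF₂, fun a b n₁ n₂ hn₁ hn₂ => ?_⟩
  show χ.1 (a * n₁) * ψ.1 (b * n₂) = χ.1 a * ψ.1 b
  rw [h₁ a n₁ (D.sub_antitone le_sup_left hn₁), h₂ b n₂ (D.sub_antitone le_sup_right hn₂)]

/-- The pointwise product of two level-constant homomorphisms is level-constant. -/
theorem isLevelFun₁_neg_mul (D : LevelDatum G) (H : Subgroup G) (χ ψ : levelHoms (k := k) D H) :
    IsLevelFun₁ D H (fun h : H => -(χ.1 h * ψ.1 h)) := by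
  obtain ⟨-, F₁, hF₁, h₁⟩ := χ.2
  obtain ⟨-, F₂, hF₂, h₂⟩ := ψ.2
  refine ⟨F₁ ⊔ F₂, D.sup hF₁ hF₂, fun a n hn => ?_⟩
  show -(χ.1 (a * n) * ψ.1 (a * n)) = -(χ.1 a * ψ.1 a)
  rw [h₁ a n (D.sub_antitone le_sup_left hn), h₂ a n (D.sub_antitone le_sup_right hn)]

end Generic

/-- **Leaf (HB-EX)**: the Hilbert pairing exists and is alternating up to sign. -/
theorem hilbertExists_of (hS : ShapiroSurjStatement) (hI : ShapiroInjStatement) :
    HilbertExistsStatement := by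
  intro G _ k _ D hN χ₀ inv H F hF hFH hfi hχ
  have hex : ∀ χ ψ : levelHoms (k := k) D H, ∃ z : cyc (lcComplex D (permRep k H)) 2,
      ∀ h₁ h₂ : H, shapiroRes D H z (h₁, h₂) = χ.1 h₁ * ψ.1 h₂ := by
    intro χ ψ
    refine hS G k D hN H F hF hFH hfi (fun h : H × H => χ.1 h.1 * ψ.1 h.2)
      (isLevelFun₂_prod D H χ ψ) fun h₁ h₂ h₃ => ?_
    show χ.1 h₂ * ψ.1 h₃ - χ.1 (h₁ * h₂) * ψ.1 h₃ + χ.1 h₁ * ψ.1 (h₂ * h₃) - χ.1 h₁ * ψ.1 h₂ = 0
    rw [χ.2.1, ψ.2.1]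
    ring
  choose Z hZ using hex
  have hwd : ∀ z z' : cyc (lcComplex D (permRep k H)) 2,
      (∀ h₁ h₂ : H, shapiroRes D H z (h₁, h₂) = shapiroRes D H z' (h₁, h₂)) →
        hilbFun D χ₀ inv H hχ z = hilbFun D χ₀ inv H hχ z' := by
    intro z z' h
    have h0 : hilbFun D χ₀ inv H hχ (z - z') = 0 :=
      hilbFun_eq_zero hI D hN χ₀ inv H F hF hFH hfi hχ (z - z') (fun _ => 0)
        ⟨⊥, D.bot, fun _ _ _ => rfl⟩ (fun h₁ h₂ => by
          rw [shapiroRes_sub, h h₁ h₂]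
          simp)
    rw [map_sub, sub_eq_zero] at h0
    exact h0
  refine ⟨LinearMap.mk₂ k (fun χ ψ => hilbFun D χ₀ inv H hχ (Z χ ψ)) ?_ ?_ ?_ ?_, ?_, ?_⟩
  · intro χ χ' ψ
    rw [← map_add]
    refine hwd _ _ fun h₁ h₂ => ?_
    rw [shapiroRes_add, hZ, hZ, hZ]
    show (χ.1 h₁ + χ'.1 h₁) * ψ.1 h₂ = _
    ring
  · intro c χ ψ
    rw [← map_smul]
    refine hwd _ _ fun h₁ h₂ => ?_
    rw [shapiroRes_smul, hZ, hZ]
    show (c * χ.1 h₁) * ψ.1 h₂ = _
    ring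
  · intro χ ψ ψ'
    rw [← map_add]
    refine hwd _ _ fun h₁ h₂ => ?_
    rw [shapiroRes_add, hZ, hZ, hZ]
    show χ.1 h₁ * (ψ.1 h₂ + ψ'.1 h₂) = _
    ring
  · intro c χ ψ
    rw [← map_smul]
    refine hwd _ _ fun h₁ h₂ => ?_
    rw [shapiroRes_smul, hZ, hZ]
    show χ.1 h₁ * (c * ψ.1 h₂) = _
    ring
  · intro χ ψ z hz
    rw [LinearMap.mk₂_apply, ← hilbFun_apply]
    refine hwd _ _ fun h₁ h₂ => ?_
    rw [hZ, hz]
  · intro χ ψ
    rw [LinearMap.mk₂_apply, LinearMap.mk₂_apply, ← map_add]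
    refine hilbFun_eq_zero hI D hN χ₀ inv H F hF hFH hfi hχ (Z χ ψ + Z ψ χ)
      (fun h : H => -(χ.1 h * ψ.1 h)) (isLevelFun₁_neg_mul D H χ ψ) fun h₁ h₂ => ?_
    rw [shapiroRes_add, hZ, hZ]
    show χ.1 h₁ * ψ.1 h₂ + ψ.1 h₁ * χ.1 h₂ =
      -(χ.1 h₂ * ψ.1 h₂) - -(χ.1 (h₁ * h₂) * ψ.1 (h₁ * h₂)) + -(χ.1 h₁ * ψ.1 h₁)
    rw [χ.2.1, ψ.2.1]
    ring

end Fermat.Agent.S55.H16
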