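/-
Program C (S55), package C3, leaf `C3-LeafSubgroupH2` (helper16).

The subgroup form of the local fundamental theorem: for a finite Galois extension `L/F` of
embedded local fields and a subgroup `H ≤ Gal(L/F)`, the cohomology of `H` with coefficients in
`Lˣ` is the cohomology of `Gal(L/M)` with `M = L^H`; hence `H¹(H, Lˣ) = 0` (Hilbert 90) and
`H²(H, Lˣ)` is cyclic of order `#H` (local fundamental theorem for `L/M`).

Main result: `leafSubgroupH2_of : LocalFundamental q → LeafSubgroupH2 q`.
-/
import Fermat.Agent.S55.H66.TateSpec
import Fermat.Agent.S55.H93.GalTransport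

set_option autoImplicit false

noncomputable section

namespace Fermat.Agent.S55.H16

open CategoryTheory groupCohomology Rep IntermediateField
open Fermat.Agent.S55.H66

variable {q : ℕ} [Fact q.Prime]
variable {F : Type} [Field F] [Algebra F (PadicAlgCl q)]
variable {M E : IntermediateField F (PadicAlgCl q)}

/-- `H` is exactly the group of automorphisms of `E` fixing `M` pointwise. -/
def IsFixer (h : M ≤ E) (H : Subgroup (E ≃ₐ[F] E)) : Prop :=
  ∀ σ : E ≃ₐ[F] E, σ ∈ H ↔ ∀ x : M, σ (inclusion h x) = inclusion h x

section Sub

variable {h : M ≤ E} {H : Subgroup (E ≃ₐ[F] E)} (hH : IsFixer h H)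

include hH in
theorem upHom_mem_of_isFixer (σ : (extendScalars h) ≃ₐ[M] (extendScalars h)) :
    upHom h σ ∈ H := by
  rw [hH]
  intro x
  apply Subtype.ext
  rw [upHom_apply_coe, H93.upEquiv_symm_inclusion, AlgEquiv.commutes]
  rfl

/-- `Gal(E/M) → H`. -/
def subHom : ((extendScalars h) ≃ₐ[M] (extendScalars h)) →* H :=
  (upHom h).codRestrict H (upHom_mem_of_isFixer hH)

theorem subHom_coe (σ : (extendScalars h) ≃ₐ[M] (extendScalars h)) :
    ((subHom hH σ : H) : E ≃ₐ[F] E) = upHom h σ := rfl

theorem subHom_injective : Function.Injective (subHom hH) := by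
  intro σ τ hστ
  have h1 : upHom h σ = upHom h τ := congrArg Subtype.val hστ
  ext y
  have h2 := congrArg (fun ρ : E ≃ₐ[F] E => ((ρ (upEquiv h y) : E) : PadicAlgCl q)) h1
  simp only [H93.upHom_apply_upEquiv, upEquiv_apply_coe] at h2
  exact h2

theorem subHom_surjective : Function.Surjective (subHom hH) := by
  rintro ⟨s, hs⟩
  have hs' := (hH s).1 hs
  let r : (extendScalars h) ≃+* (extendScalars h) :=
    ((upEquiv h).toRingEquiv.trans s.toRingEquiv).trans (upEquiv h).symm.toRingEquiv
  have hr : ∀ x : M, r (algebraMap M (extendScalars h) x) = algebraMap M (extendScalars h) x := by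
    intro x
    change (upEquiv h).symm (s (upEquiv h (algebraMap M (extendScalars h) x))) = _
    have h1 : upEquiv h (algebraMap M (extendScalars h) x) = inclusion h x := by
      apply Subtype.ext
      rfl
    rw [h1, hs' x, H93.upEquiv_symm_inclusion]
  refine ⟨AlgEquiv.ofRingEquiv hr, ?_⟩
  apply Subtype.ext
  ext y
  rw [subHom_coe, upHom_apply_coe]
  change ((upEquiv h).symm (s (upEquiv h ((upEquiv h).symm y))) : PadicAlgCl q) = _
  rw [upEquiv_symm_apply_coe, AlgEquiv.apply_symm_apply]

/-- `Gal(E/M) ≃* H`. -/
def subEquiv : ((extendScalars h) ≃ₐ[M] (extendScalars h)) ≃* H :=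
  MulEquiv.ofBijective (subHom hH) ⟨subHom_injective hH, subHom_surjective hH⟩

theorem subEquiv_coe (σ : (extendScalars h) ≃ₐ[M] (extendScalars h)) :
    ((subEquiv hH σ : H) : E ≃ₐ[F] E) = upHom h σ := rfl

theorem unitsDown_comm_sub (g : (extendScalars h) ≃ₐ[M] (extendScalars h)) :
    (H93.unitsDown h).toLinearMap ∘ₗ (Rep.ofAlgebraAutOnUnits M (extendScalars h)).ρ g =
      (res H.subtype (Rep.ofAlgebraAutOnUnits F E)).ρ (subEquiv hH g) ∘ₗ
        (H93.unitsDown h).toLinearMap := by
  apply LinearMap.ext
  intro y
  apply Additive.toMul.injective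
  apply Units.ext
  exact (H93.upHom_apply_upEquiv h g _).symm

/-- `Hⁿ(Gal(E/M), Eˣ) ≅ Hⁿ(H, Eˣ)`. -/
def subIso (n : ℕ) :
    groupCohomology (Rep.ofAlgebraAutOnUnits M (extendScalars h)) n ≅
      groupCohomology (res H.subtype (Rep.ofAlgebraAutOnUnits F E)) n :=
  mapIso (subEquiv hH) (H93.unitsDown h) (unitsDown_comm_sub hH) n

end Sub

/-- Every subgroup of the Galois group of a finite Galois extension is the fixer of its fixed
field (lifted to `Ω`). -/
theorem isFixer_lift_fixedField [FiniteDimensional F E] (H : Subgroup (E ≃ₐ[F] E)) :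
    IsFixer (IntermediateField.lift_le (IntermediateField.fixedField H)) H := by
  intro σ
  have h1 : σ ∈ H ↔ σ ∈ (IntermediateField.fixedField H).fixingSubgroup := by
    rw [IntermediateField.fixingSubgroup_fixedField H]
  rw [h1, IntermediateField.mem_fixingSubgroup_iff]
  constructor
  · intro hσ x
    exact hσ _ ((IntermediateField.mem_lift (inclusion (IntermediateField.lift_le
      (IntermediateField.fixedField H)) x)).1 x.2)
  · intro hσ x hx
    exact hσ ⟨x.1, (IntermediateField.mem_lift x).2 hx⟩

/-- The subgroup form of the local fundamental theorem. -/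
theorem leafSubgroupH2_of (hFund : LocalFundamental q) : LeafSubgroupH2 q := by
  intro F _ _ _ _ _ L _ _ H
  have h : IntermediateField.lift (IntermediateField.fixedField H) ≤ L :=
    IntermediateField.lift_le (IntermediateField.fixedField H)
  have hH : IsFixer h H := isFixer_lift_fixedField H
  have : FiniteDimensional F (IntermediateField.lift (IntermediateField.fixedField H)) :=
    Module.Finite.of_injective (IntermediateField.inclusion h).toLinearMap
      (IntermediateField.inclusion_injective h)
  have : FiniteDimensional (IntermediateField.lift (IntermediateField.fixedField H))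
      (extendScalars h) := H93.finiteDimensional_extendScalars h
  have : IsGalois F (extendScalars h) := IsGalois.of_algEquiv (upEquiv h).symm
  have : IsGalois (IntermediateField.lift (IntermediateField.fixedField H))
      (extendScalars h) :=
    IsGalois.tower_top_of_isGalois F (IntermediateField.lift (IntermediateField.fixedField H))
      (extendScalars h)
  obtain ⟨hcyc, hcard⟩ := hFund (IntermediateField.lift (IntermediateField.fixedField H))
    (extendScalars h)
  refine ⟨?_, ?_, ?_⟩
  · haveI : Subsingleton (groupCohomology (Rep.ofAlgebraAutOnUnits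
        (IntermediateField.lift (IntermediateField.fixedField H)) (extendScalars h)) 1) :=
      (H1ofAutOnUnitsUnique (IntermediateField.lift (IntermediateField.fixedField H))
        (extendScalars h)).instSubsingleton
    exact (subIso hH 1).symm.toLinearEquiv.toEquiv.subsingleton
  · haveI := hcyc
    exact isAddCyclic_of_surjective (subIso hH 2).toLinearEquiv.toAddMonoidHom
      (subIso hH 2).toLinearEquiv.surjective
  · rw [← Nat.card_congr (subIso hH 2).toLinearEquiv.toEquiv]
    refine hcard.trans ?_
    rw [← IsGalois.card_aut_eq_finrank (IntermediateField.lift (IntermediateField.fixedField H))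
      (extendScalars h)]
    exact Nat.card_congr (subEquiv hH).toEquiv

end Fermat.Agent.S55.H16
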